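/-
S34lib / Unip (lead), block B7.  INTERFACE between project LSb (bad reduction of `J₀(N)` at a prime
`q ∥ N`) and the assembly of S34: the inertia at `q ∥ N`, `q ≠ p`, acts unipotently of level two on
the `p`-power torsion of `J₀(N)(ℚ̄)`.
-/
import Fermat.Agent.S29lib.Interface.Basic

set_option autoImplicit false

noncomputable section

namespace Fermat.Agent.S34lib

open ModularCurve Fermat.Agent.S29lib

/-- `ℚ̄` -/
local notation "Qb" => AlgebraicClosure ℚ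
/-- `G_ℚ` -/
local notation "GQ" => (AlgebraicClosure ℚ ≃ₐ[ℚ] AlgebraicClosure ℚ)

/-- `(σ - 1)² = 0` on `J₀(N)[p^∞]`, for ONE element `σ` of `G_ℚ`. -/
def UnipAt (N p : ℕ) [NeZero N] (σ : GQ) : Prop :=
  ∀ (k : ℕ) (x : JZero N), x ∈ Tors N (p ^ k) → σ • σ • x - (σ • x + σ • x) + x = 0

/-- **(U) on torsion**: for `q ∥ N`, `q ≠ p`, every `σ` in an inertia group above `q` satisfies
`(σ - 1)² = 0` on `J₀(N)[p^k]`. -/
def UnipTors (N p : ℕ) [NeZero N] : Prop :=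
  ∀ q : ℕ, q.Prime → q ≠ p → q ∣ N → ¬ q ^ 2 ∣ N →
    ∀ A : ValuationSubring Qb, A.LiesOverPrime q → ∀ σ ∈ A.inertiaSubgroupIn ℚ,
      ∀ (k : ℕ) (x : JZero N), x ∈ Tors N (p ^ k) → σ • σ • x - (σ • x + σ • x) + x = 0

/-- `UnipTors` in terms of `UnipAt` (definitional). -/
theorem unipTors_iff (N p : ℕ) [NeZero N] :
    UnipTors N p ↔ ∀ q : ℕ, q.Prime → q ≠ p → q ∣ N → ¬ q ^ 2 ∣ N →
      ∀ A : ValuationSubring Qb, A.LiesOverPrime q → ∀ σ ∈ A.inertiaSubgroupIn ℚ, UnipAt N p σ :=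
  Iff.rfl

end Fermat.Agent.S34lib
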