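/-
S34lib / Unip (lead), block B7 step 4: the adic block X of S30 with the unipotent clause.
* good case: `ρ = toLin' ∘ M` over the domain `O`; `(M σ - 1)² = 0` gives trace 2 and determinant 1,
  so the characteristic polynomial is `(X - 1)²`;
* commutative case: the eigen-character `c` satisfies `(c σ - 1)² = 0`, so `c σ = 1`, and the
  cyclotomic character is trivial on the inertia at `q ≠ p`: the diagonal piece is trivial at `σ`.
-/
import Fermat.Agent.S29lib.S30.AdicX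
import Fermat.Prelude.Def_GaloisRep_LocalConditions

set_option autoImplicit false
set_option linter.unusedSectionVars false
set_option linter.style.haveILetI false

noncomputable section

namespace Fermat.Agent.S34lib

open Fermat.Agent.S29lib.X Fermat.Agent.ExtVan.InertiaLift Polynomial Matrix IsLocalRing
  Fermat.Agent.S29lib.S30

/-! ### 2×2 matrices with `(M - 1)² = 0` over a domain -/

section TwoByTwo

variable {R : Type*} [CommRing R] [IsDomain R]

theorem trace_det_of_sub_one_sq (M : Matrix (Fin 2) (Fin 2) R) (h : (M - 1) * (M - 1) = 0) :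
    M.trace = 2 ∧ M.det = 1 := by
  have h00 := congrFun (congrFun h 0) 0
  have h01 := congrFun (congrFun h 0) 1
  have h10 := congrFun (congrFun h 1) 0
  have h11 := congrFun (congrFun h 1) 1
  simp only [Matrix.sub_apply, Matrix.mul_apply, Fin.sum_univ_two,
    Matrix.one_apply, Matrix.zero_apply] at h00 h01 h10 h11
  simp only [Fin.isValue, ↓reduceIte, zero_ne_one, one_ne_zero, sub_zero] at h00 h01 h10 h11
  rw [Matrix.trace_fin_two, Matrix.det_fin_two]
  by_cases ht : M 0 0 + M 1 1 = 2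
  · refine ⟨ht, ?_⟩
    linear_combination (-1 : R) * h00 + M 0 0 * ht
  · exfalso
    have hne : M 0 0 + M 1 1 - 2 ≠ 0 := sub_ne_zero.mpr ht
    have hy : M 0 1 = 0 := by
      have : M 0 1 * (M 0 0 + M 1 1 - 2) = 0 := by linear_combination h01
      exact (mul_eq_zero.mp this).resolve_right hne
    have ha : M 0 0 - 1 = 0 := by
      have : (M 0 0 - 1) * (M 0 0 - 1) = 0 := by
        rw [hy] at h00
        linear_combination h00
      exact mul_self_eq_zero.mp this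
    have hd : M 1 1 - 1 = 0 := by
      have : (M 1 1 - 1) * (M 1 1 - 1) = 0 := by
        rw [hy] at h11
        linear_combination h11
      exact mul_self_eq_zero.mp this
    apply hne
    linear_combination ha + hd

theorem charpoly_of_sub_one_sq (M : Matrix (Fin 2) (Fin 2) R) (h : (M - 1) * (M - 1) = 0) :
    M.charpoly = (X - 1) ^ 2 := by
  obtain ⟨ht, hd⟩ := trace_det_of_sub_one_sq M h
  rw [Matrix.charpoly_fin_two, ht, hd, map_one, map_ofNat]
  ring

end TwoByTwo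

/-! ### the unipotent clause for adic pieces -/

section Piece

variable {N p : ℕ} {A : Type} [CommRing A] [IsLocalRing A] {a : Nat.Primes → A}

/-- the unipotent clause for an adic piece: `(M σ - 1)² = 0` for `σ` in an inertia group above a
prime `q ∥ N`, `q ≠ p`. -/
def IsUnipPiece (P : AdicPiece N p A a) : Prop :=
  ∀ q : ℕ, q.Prime → q ≠ p → q ∣ N → ¬ q ^ 2 ∣ N →
    ∀ B : ValuationSubring Qb, B.LiesOverPrime q → ∀ σ ∈ B.inertiaSubgroupIn ℚ,
      (P.M σ - 1) * (P.M σ - 1) = 0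

theorem toRep_isUnipotentOnInertiaAt [IsDomain A] (P : AdicPiece N p A a) (hP : IsUnipPiece P)
    {q : ℕ} (hq : q.Prime) (hqp : q ≠ p) (hqN : q ∣ N) (hq2 : ¬ q ^ 2 ∣ N) :
    P.toRep.IsUnipotentOnInertiaAt q := by
  intro B hB σ hσ
  exact (Matrix.charpoly_toLin' (P.M σ)).trans
    (charpoly_of_sub_one_sq _ (hP q hq hqp hqN hq2 B hB σ hσ))

end Piece

/-! ### The commutative case -/

section Bad

variable {N p : ℕ} [hpf : Fact p.Prime] {O : Type} [CommRing O] [IsDomain O]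
  [IsDiscreteValuationRing O] [IsAdicComplete (maximalIdeal O) O] [Finite (ResidueField O)]
  [CharZero O] {a : Nat.Primes → O}

/-- the diagonal piece `c ⊕ χ c⁻¹` over an extension `O₂`, with the unipotent clause (copy of
`S30.exists_good_piece_of_commute` with one more hypothesis and one more conclusion). -/
theorem exists_good_piece_of_commute_unip (hpO : (p : O) ∈ maximalIdeal O)
    (P : AdicPiece N p O a) (hPU : IsUnipPiece P)
    (hcomm : ∀ σ τ : GQ, Commute (P.M σ) (P.M τ)) :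
    ∃ (O₂ : Type) (_ : CommRing O₂) (_ : IsDomain O₂) (_ : IsDiscreteValuationRing O₂)
      (_ : IsAdicComplete (maximalIdeal O₂) O₂) (_ : Finite (ResidueField O₂)) (_ : CharZero O₂)
      (_ : Algebra O O₂) (_ : Module.Finite O O₂) (_ : IsLocalHom (algebraMap O O₂)),
      Function.Injective (algebraMap O O₂) ∧
      ∃ P₂ : AdicPiece N p O₂ (fun ℓ => algebraMap O O₂ (a ℓ)), P₂.IsGood ∧ IsUnipPiece P₂ := by
  classical
  have hp : p.Prime := hpf.out
  obtain ⟨O₂, i1, i2, i3, i4, i5, i6, i7, i8, i9, hinj, c, hcont, htriv, hrel⟩ :=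
    exists_eigenChar P.M hcomm
  refine ⟨O₂, i1, i2, i3, i4, i5, i6, i7, i8, i9, hinj, ?_⟩
  -- `p` lies in the maximal ideal of `O₂`
  have hmap : ∀ x : O, x ∈ maximalIdeal O → algebraMap O O₂ x ∈ maximalIdeal O₂ := by
    intro x hx
    rw [mem_maximalIdeal, mem_nonunits_iff] at hx ⊢
    exact fun hu => hx (i9.map_nonunit x hu)
  have hp₂ : (p : O₂) ∈ maximalIdeal O₂ := by
    have := hmap (p : O) hpO
    rwa [map_natCast] at this
  set χ₂ : GQ →* O₂ˣ := chiAdic p (maximalIdeal O₂) hp₂ with hχ₂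
  set d₁ : GQ →* O₂ := (Units.coeHom O₂).comp c with hd₁
  set d₂ : GQ →* O₂ := (Units.coeHom O₂).comp (χ₂ / c) with hd₂
  have hd₁a : ∀ σ, d₁ σ = ((c σ : O₂ˣ) : O₂) := fun _ => rfl
  have hd₂a : ∀ σ, d₂ σ = ((χ₂ σ : O₂ˣ) : O₂) * (((c σ)⁻¹ : O₂ˣ) : O₂) := fun σ => by
    rw [hd₂, MonoidHom.comp_apply, MonoidHom.div_apply, div_eq_mul_inv, Units.coeHom_apply,
      Units.val_mul]
  have huw : ∀ σ, ((c σ : O₂ˣ) : O₂) * (((c σ)⁻¹ : O₂ˣ) : O₂) = 1 := fun σ => Units.mul_inv _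
  -- the quadratic relation at Frobenius elements
  have hquad : ∀ (ℓ : ℕ) (hℓ : ℓ.Prime), ¬ ℓ ∣ N * p →
      ∀ B : ValuationSubring Qb, B.LiesOverPrime ℓ → ∀ σ : GQ, B.IsFrobeniusAt σ ℓ →
        ((c σ : O₂ˣ) : O₂) * (c σ : O₂ˣ) - algebraMap O O₂ (a ⟨ℓ, hℓ⟩) * (c σ : O₂ˣ)
          + (ℓ : O₂) = 0 ∧ ((χ₂ σ : O₂ˣ) : O₂) = (ℓ : O₂) := by
    intro ℓ hℓ h B hB σ hσ
    refine ⟨?_, chiAdic_of_isFrobeniusAt _ hp₂ hℓ (ne_of_not_dvd' h) hB hσ⟩
    have := hrel σ (a ⟨ℓ, hℓ⟩) (ℓ : O) (P.frob ℓ hℓ h B hB σ hσ)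
    rwa [map_natCast] at this
  refine ⟨{ M := diagHom d₁ d₂, continuous := ?_, unram := ?_, frob := ?_ }, ?_, ?_⟩
  · -- continuity
    intro n
    obtain ⟨L₀, hfd, hL₀⟩ := P.continuous n
    haveI := hfd
    refine ⟨L₀ ⊔ cycloFieldPow p n, IntermediateField.finiteDimensional_sup _ _,
      fun σ hσ => ?_⟩
    have h1 : ((c σ : O₂ˣ) : O₂) - 1 ∈ maximalIdeal O₂ ^ n :=
      hcont n σ fun i j => hL₀ σ (fun x hx => hσ x (le_sup_left (a := L₀) hx)) i j
    have h2 : ((χ₂ σ : O₂ˣ) : O₂) - 1 ∈ maximalIdeal O₂ ^ n :=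
      chiAdic_sub_one_mem _ hp₂ fun x hx => hσ x (le_sup_right (b := cycloFieldPow p n) hx)
    have h3 : (((χ₂ / c) σ : O₂ˣ) : O₂) - 1 ∈ maximalIdeal O₂ ^ n := by
      rw [MonoidHom.div_apply]
      exact (congSub (maximalIdeal O₂ ^ n)).div_mem (mem_congSub.mpr h2) (mem_congSub.mpr h1)
    intro i j
    rw [diagHom_apply]
    fin_cases i <;> fin_cases j
    · simpa [hd₁a] using h1
    · simp
    · simp
    · simpa [hd₂] using h3
  · -- unramifiedness
    intro ℓ hℓ h B hB σ hσ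
    have h1 : c σ = 1 := htriv σ (P.unram ℓ hℓ h B hB σ hσ)
    have h2 : χ₂ σ = 1 := chiAdic_of_mem_inertia _ hp₂ hℓ (ne_of_not_dvd' h) hB hσ
    rw [diagHom_apply, hd₁a, hd₂a, h1, h2]
    ext i j
    fin_cases i <;> fin_cases j <;> simp
  · -- the quadratic relation
    intro ℓ hℓ h B hB σ hσ
    obtain ⟨hq, hχ⟩ := hquad ℓ hℓ h B hB σ hσ
    have hu := huw σ
    rw [diagHom_apply, hd₁a, hd₂a, hχ]
    set u : O₂ := ((c σ : O₂ˣ) : O₂)
    set w : O₂ := (((c σ)⁻¹ : O₂ˣ) : O₂)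
    set a' : O₂ := algebraMap O O₂ (a ⟨ℓ, hℓ⟩)
    ext i j
    fin_cases i <;> fin_cases j
    · simp
      linear_combination hq
    · simp
    · simp
    · simp
      linear_combination ((ℓ : O₂) * w ^ 2) * hq - ((ℓ : O₂) * (1 + u * w) - a' * (ℓ : O₂) * w) * hu
  · -- all Frobenius elements are good
    intro ℓ hℓ h B hB σ hσ
    obtain ⟨hq, hχ⟩ := hquad ℓ hℓ h B hB σ hσ
    have hu := huw σ
    show (diagHom d₁ d₂ σ).trace = algebraMap O O₂ (a ⟨ℓ, hℓ⟩) ∧ (diagHom d₁ d₂ σ).det = (ℓ : O₂)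
    rw [diagHom_apply, hd₁a, hd₂a, hχ, Matrix.trace_fin_two, Matrix.det_fin_two]
    set u : O₂ := ((c σ : O₂ˣ) : O₂)
    set w : O₂ := (((c σ)⁻¹ : O₂ˣ) : O₂)
    set a' : O₂ := algebraMap O O₂ (a ⟨ℓ, hℓ⟩)
    constructor
    · simp
      linear_combination w * hq - (u - a') * hu
    · simp
      linear_combination (ℓ : O₂) * hu
  · -- the unipotent clause: the diagonal piece is trivial on the inertia at `q ∥ N`
    intro q hq hqp hqN hq2 B hB σ hσ
    show (diagHom d₁ d₂ σ - 1) * (diagHom d₁ d₂ σ - 1) = 0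
    have h0 := hPU q hq hqp hqN hq2 B hB σ hσ
    have h0' : P.M σ * P.M σ - (2 : O) • P.M σ + (1 : O) • (1 : Matrix (Fin 2) (Fin 2) O) = 0 := by
      rw [← h0, one_smul, two_smul]
      noncomm_ring
    have h1 := hrel σ 2 1 h0'
    rw [map_one, map_ofNat] at h1
    have h2 : (((c σ : O₂ˣ) : O₂) - 1) * (((c σ : O₂ˣ) : O₂) - 1) = 0 := by
      linear_combination h1
    have h3 : ((c σ : O₂ˣ) : O₂) = 1 := by
      rcases mul_self_eq_zero.mp h2 with h
      exact sub_eq_zero.mp h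
    have h4 : c σ = 1 := Units.ext h3
    have h5 : χ₂ σ = 1 := chiAdic_of_mem_inertia _ hp₂ hq hqp hB hσ
    have h6 : diagHom d₁ d₂ σ = 1 := by
      rw [diagHom_apply, hd₁a, hd₂a, h4, h5]
      ext i j
      fin_cases i <;> fin_cases j <;> simp
    rw [h6, sub_self, mul_zero]

end Bad

/-! ### The adic block X with the unipotent clause -/

section Final

variable {N p : ℕ} [hpf : Fact p.Prime]

/-- **Adic block X with the unipotent clause** (explicit form). -/
theorem exists_galoisRepAdic_of_adicPiece_unip (hN : N ≠ 0) (O : Type) [CommRing O] [IsDomain O]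
    [IsDiscreteValuationRing O] [IsAdicComplete (maximalIdeal O) O] [Finite (ResidueField O)]
    [CharZero O] (hpO : (p : O) ∈ maximalIdeal O) (a : Nat.Primes → O) (P : AdicPiece N p O a)
    (hPU : IsUnipPiece P) :
    ∃ (O₂ : Type) (_ : CommRing O₂) (_ : IsDomain O₂) (_ : IsDiscreteValuationRing O₂)
      (_ : IsAdicComplete (maximalIdeal O₂) O₂) (_ : Finite (ResidueField O₂)) (_ : CharZero O₂)
      (_ : Algebra O O₂) (_ : Module.Finite O O₂) (_ : IsLocalHom (algebraMap O O₂)),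
      Function.Injective (algebraMap O O₂) ∧
      ∃ ρ : GaloisRepAdic O₂,
        (∀ (ℓ : ℕ) (hℓ : ℓ.Prime), ¬ ℓ ∣ N * p →
          ∀ B : ValuationSubring (AlgebraicClosure ℚ), B.LiesOverPrime ℓ →
            ∀ σ : AlgebraicClosure ℚ ≃ₐ[ℚ] AlgebraicClosure ℚ, B.IsFrobeniusAt σ ℓ →
              LinearMap.charpoly (ρ.ρ σ) =
                X ^ 2 - C (algebraMap O O₂ (a ⟨ℓ, hℓ⟩)) * X + C ((ℓ : O₂))) ∧
        (∀ ℓ : ℕ, ℓ.Prime → ¬ ℓ ∣ N * p → ρ.IsUnramifiedAt ℓ) ∧
        (∀ q : ℕ, q.Prime → q ≠ p → q ∣ N → ¬ q ^ 2 ∣ N → ρ.IsUnipotentOnInertiaAt q) := by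
  classical
  by_cases hgood : P.IsGood
  · refine ⟨O, inferInstance, inferInstance, inferInstance, inferInstance, inferInstance,
      inferInstance, Algebra.id O, inferInstance, ?_, Function.injective_id, P.toRep, ?_⟩
    · exact isLocalHom_id O
    · have h := P.isAttachedAdic_of_isGood hgood
      exact ⟨h.1, h.2, fun q hq hqp hqN hq2 =>
        toRep_isUnipotentOnInertiaAt P hPU hq hqp hqN hq2⟩
  · unfold AdicPiece.IsGood at hgood
    push Not at hgood
    obtain ⟨ℓ₀, hℓ₀, h₀, A₀, hA₀, σ₀, hσ₀, hbad⟩ := hgood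
    have hcomm := commute_of_bad hpO P hN hℓ₀ h₀ hA₀ hσ₀
      (fun hh => absurd hh.2 (hbad hh.1))
    obtain ⟨O₂, i1, i2, i3, i4, i5, i6, i7, i8, i9, hinj, P₂, hP₂, hP₂U⟩ :=
      exists_good_piece_of_commute_unip hpO P hPU hcomm
    have h := P₂.isAttachedAdic_of_isGood hP₂
    exact ⟨O₂, i1, i2, i3, i4, i5, i6, i7, i8, i9, hinj, P₂.toRep, h.1, h.2,
      fun q hq hqp hqN hq2 => toRep_isUnipotentOnInertiaAt P₂ hP₂U hq hqp hqN hq2⟩

end Final

end Fermat.Agent.S34lib
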