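/-
S34lib / Unip (lead), block B7 step 5: **S30⁺** = the statement S30 (the `p`-adic Galois
representation attached to a point of the anemic Hecke algebra) with one more conclusion: the
representation is unipotent on the inertia at every prime `q ∥ N`, `q ≠ p`.  Input: `UnipTors N p`
(project LSb).  Copy of `S30.s30_of_blocks` with the `_unip` bricks.
-/
import Fermat.Agent.S29lib.Z.Final
import Fermat.Agent.S29lib.S30.Assemble
import Fermat.Agent.S34lib.Unip.Galois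
import Fermat.Agent.S34lib.Unip.AdicX

set_option autoImplicit false
set_option linter.style.haveILetI false
set_option linter.unusedSectionVars false

noncomputable section

namespace Fermat.Agent.S34lib

open Polynomial ModularCurve Fermat.Agent.S29lib Fermat.Agent.S29lib.X
  Fermat.Agent.ExtVan.InertiaLift Fermat.Agent.S29lib.Dvr Fermat.Agent.S29lib.S30

/-- **S30⁺.** -/
theorem s30_unip (p : ℕ) [Fact p.Prime] (N : ℕ) [NeZero N] (hU : UnipTors N p) (S : Finset ℕ)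
    (hpS : p ∈ S) (hNS : ∀ q : ℕ, q.Prime → q ∣ N → q ∈ S)
    (𝒪' : Type) [CommRing 𝒪'] [IsDomain 𝒪'] [IsDiscreteValuationRing 𝒪']
    [IsAdicComplete (IsLocalRing.maximalIdeal 𝒪') 𝒪'] [Finite (IsLocalRing.ResidueField 𝒪')]
    [CharZero 𝒪'] (hp𝒪' : (p : 𝒪') ∈ IsLocalRing.maximalIdeal 𝒪')
    (χ : CuspForm.heckeAlgebra N 2 (↑S : Set ℕ) →+* 𝒪') :
    ∃ (𝒪'' : Type) (_ : CommRing 𝒪'') (_ : IsDomain 𝒪'') (_ : IsDiscreteValuationRing 𝒪'')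
      (_ : IsAdicComplete (IsLocalRing.maximalIdeal 𝒪'') 𝒪'')
      (_ : Finite (IsLocalRing.ResidueField 𝒪'')) (_ : CharZero 𝒪'')
      (_ : Algebra 𝒪' 𝒪'') (_ : Module.Finite 𝒪' 𝒪'') (_ : IsLocalHom (algebraMap 𝒪' 𝒪'')),
    Function.Injective (algebraMap 𝒪' 𝒪'') ∧
    ∃ ρ : GaloisRepAdic 𝒪'',
      (∀ (ℓ : ℕ) (hℓ : ℓ.Prime) (hℓN : ¬ ℓ ∣ N) (hℓS : ℓ ∉ (↑S : Set ℕ)),
        ∀ A : ValuationSubring (AlgebraicClosure ℚ), A.LiesOverPrime ℓ →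
          ∀ σ : AlgebraicClosure ℚ ≃ₐ[ℚ] AlgebraicClosure ℚ, A.IsFrobeniusAt σ ℓ →
            LinearMap.charpoly (ρ.ρ σ) =
              X ^ 2 - C (algebraMap 𝒪' 𝒪'' (χ (CuspForm.heckeAlgebra.T hℓ hℓN hℓS))) * X
                + C ((ℓ : 𝒪''))) ∧
      (∀ q : ℕ, q.Prime → ¬ q ∣ N → q ≠ p → ρ.IsUnramifiedAt q) ∧
      (∀ q : ℕ, q.Prime → q ≠ p → q ∣ N → ¬ q ^ 2 ∣ N → ρ.IsUnipotentOnInertiaAt q) := by
  classical
  have hp : p.Prime := Fact.out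
  -- comparison data, eigen input, local data
  obtain ⟨Cd, hCg⟩ := Z.compStatement N p hp
  have hL : LocalData N p := GH.localData_of_comparisonData Cd hp.ne_zero
  -- bricks A + B
  obtain ⟨K₁, hfd, a₁, hfinL, ha₁⟩ := exists_eigen_data Cd hCg (↑S : Set ℕ) 𝒪' χ
  haveI := hfd
  -- the DVR `O1`
  obtain ⟨_, _, _, _, _, hfin1, hloc1, hinj1⟩ := exists_dvr_structure 𝒪' (FractionRing 𝒪') K₁
  have hpO1 : (p : OL 𝒪' K₁) ∈ IsLocalRing.maximalIdeal (OL 𝒪' K₁) := by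
    have h1 : (p : OL 𝒪' K₁) = algebraMap 𝒪' (OL 𝒪' K₁) (p : 𝒪') := (map_natCast _ p).symm
    rw [h1]
    exact map_nonunit (algebraMap 𝒪' (OL 𝒪' K₁)) _ hp𝒪'
  -- brick C: the matrices
  obtain ⟨M, hM1, hM2, hM3, hM4⟩ := exists_adic_matrix_unip Cd hL hU (OL 𝒪' K₁) hpO1 a₁
    (algebraMap (OL 𝒪' K₁) K₁) Subtype.val_injective hfinL
  let P : AdicPiece N p (OL 𝒪' K₁) a₁ := ⟨M, hM1, hM2, hM3⟩
  have hPU : IsUnipPiece P := hM4
  -- brick E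
  obtain ⟨O₂, i1, i2, i3, i4, i5, i6, i7, i8, i9, hinj2, ρ', hchar, hunr, hunip⟩ :=
    exists_galoisRepAdic_of_adicPiece_unip (NeZero.ne N) (OL 𝒪' K₁) hpO1 a₁ P hPU
  -- the tower
  letI : Algebra 𝒪' O₂ := ((algebraMap (OL 𝒪' K₁) O₂).comp (algebraMap 𝒪' (OL 𝒪' K₁))).toAlgebra
  haveI : IsScalarTower 𝒪' (OL 𝒪' K₁) O₂ := IsScalarTower.of_algebraMap_eq fun _ => rfl
  haveI : Module.Finite 𝒪' O₂ := Module.Finite.trans (OL 𝒪' K₁) O₂
  haveI : IsLocalHom (algebraMap 𝒪' O₂) :=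
    RingHom.isLocalHom_comp (algebraMap (OL 𝒪' K₁) O₂) (algebraMap 𝒪' (OL 𝒪' K₁))
  refine ⟨O₂, i1, i2, i3, i4, i5, i6, inferInstance, inferInstance, inferInstance,
    hinj2.comp hinj1, ρ', ?_, ?_, hunip⟩
  · intro ℓ hℓ hℓN hℓS A hA σ hσ
    have hℓp : ℓ ≠ p := by
      rintro rfl
      exact hℓS (Finset.mem_coe.mpr hpS)
    rw [hchar ℓ hℓ (not_dvd_mul_of_prime hℓ hp hℓN hℓp) A hA σ hσ, ha₁ ℓ hℓ hℓN hℓS]
    rfl
  · intro q hq hqN hqp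
    exact hunr q hq (not_dvd_mul_of_prime hq hp hqN hqp)

end Fermat.Agent.S34lib
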