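/-
S34lib / Unip (lead), block B7 step 1: the relation `(σ - 1)² = 0` passes from the torsion system
to the matrices `galMat k σ` over `ℤ/p^k` and to their adic limit `galMatO σ`.
-/
import Fermat.Agent.S29lib.S30.AdicLattice

set_option autoImplicit false

noncomputable section

namespace Fermat.Agent.S34lib

open Matrix Fermat.Agent.S29lib.E Fermat.Agent.S29lib.S30

variable {G I : Type} [Monoid G] {p r : ℕ} (𝒯 : TorsionSystem G I p r)

/-- the unipotent relation for the matrices modulo `p^k` -/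
lemma galMat_unip (k : ℕ) (σ : G)
    (h : ∀ x : 𝒯.T k, 𝒯.act k σ (𝒯.act k σ x) - (𝒯.act k σ x + 𝒯.act k σ x) + x = 0) :
    𝒯.galMat k σ * 𝒯.galMat k σ - (𝒯.galMat k σ + 𝒯.galMat k σ)
      + (1 : Matrix (Fin r) (Fin r) (ZMod (p ^ k))) = 0 := by
  apply 𝒯.mat_ext_κ
  intro x
  rw [Matrix.add_mulVec, Matrix.sub_mulVec, Matrix.add_mulVec, ← Matrix.mulVec_mulVec,
    𝒯.galMat_mulVec_κ k σ x, 𝒯.galMat_mulVec_κ k σ (𝒯.act k σ x), Matrix.one_mulVec,
    ← map_add, ← map_sub, ← map_add, h x, map_zero, Matrix.zero_mulVec]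

variable {O : Type} [CommRing O] (J : Ideal O) [IsAdicComplete J O] (hpJ : (p : O) ∈ J)

/-- the unipotent relation for the limit matrices -/
lemma galMatO_unip (σ : G)
    (h : ∀ k, ∀ x : 𝒯.T k, 𝒯.act k σ (𝒯.act k σ x) - (𝒯.act k σ x + 𝒯.act k σ x) + x = 0) :
    galMatO 𝒯 J hpJ σ * galMatO 𝒯 J hpJ σ - (galMatO 𝒯 J hpJ σ + galMatO 𝒯 J hpJ σ)
      + (1 : Matrix (Fin r) (Fin r) O) = 0 := by
  have h1 := (((isLim_galMatO 𝒯 J hpJ σ).mul J hpJ (isLim_galMatO 𝒯 J hpJ σ)).sub J hpJ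
    ((isLim_galMatO 𝒯 J hpJ σ).add J hpJ (isLim_galMatO 𝒯 J hpJ σ))).add J hpJ
    (IsLim.one J hpJ)
  apply IsLim.unique J hpJ h1
  intro k
  rw [IsLim.zero J hpJ k]
  simp only
  congr 1
  exact (galMat_unip 𝒯 k σ (h k)).symm

end Fermat.Agent.S34lib
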