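/-
S34lib / Unip (lead), block B7 step 3: the adic lattice of S30 (Galois form and matrix form), with
the unipotent clause at the primes `q ∥ N`, `q ≠ p`, from `UnipTors N p`.
-/
import Fermat.Agent.S29lib.S30.AdicMatrix
import Fermat.Agent.S34lib.Unip.Interface
import Fermat.Agent.S34lib.Unip.Lattice

set_option autoImplicit false

noncomputable section

namespace Fermat.Agent.S34lib

open ModularCurve Matrix Fermat.Agent.S29lib Fermat.Agent.S29lib.E Fermat.Agent.S29lib.S30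

/-- `ℚ̄` -/
local notation "Qb" => AlgebraicClosure ℚ
/-- `G_ℚ` -/
local notation "GQ" => (AlgebraicClosure ℚ ≃ₐ[ℚ] AlgebraicClosure ℚ)

variable {N p : ℕ} [NeZero N]

lemma unip_tors (k : ℕ) (σ : GQ) (x : Tors N (p ^ k))
    (h : σ • σ • (x : JZero N) - (σ • (x : JZero N) + σ • (x : JZero N)) + (x : JZero N) = 0) :
    galTors (p ^ k) σ (galTors (p ^ k) σ x) - (galTors (p ^ k) σ x + galTors (p ^ k) σ x) + x
      = 0 := by
  apply Subtype.ext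
  rw [Submodule.coe_add, Submodule.coe_sub, Submodule.coe_add, Submodule.coe_zero]
  exact h

/-- **S30 brick (C), Galois form, with the unipotent clause.** -/
theorem exists_adic_galois_unip (C : ComparisonData N p) (LD : LocalData N p)
    (hU : UnipTors N p)
    (O : Type) [CommRing O] [IsDomain O] [IsDiscreteValuationRing O]
    [IsAdicComplete (IsLocalRing.maximalIdeal O) O] (hpO : (p : O) ∈ IsLocalRing.maximalIdeal O)
    (a : Nat.Primes → O) {L : Type} [Field L] (emb : O →+* L) (hemb : Function.Injective emb)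
    (hfin : Module.finrank L ↥(⨅ ℓ : Nat.Primes, LinearMap.ker
      (Matrix.toLin' ((C.t ℓ).map (Int.cast : ℤ → L)) - emb (a ℓ) • 1)) = 2) :
    ∃ (V : Submodule O (Fin C.r → O)) (ρ : GQ →* Module.End O V),
      Module.Free O V ∧ Module.Finite O V ∧ Module.finrank O V = 2 ∧
      GaloisActionIsAdicContinuous O ρ ∧
      (∀ ℓ : ℕ, ℓ.Prime → ¬ ℓ ∣ N * p →
        ∀ A : ValuationSubring Qb, A.LiesOverPrime ℓ → ∀ σ ∈ A.inertiaSubgroupIn ℚ, ρ σ = 1) ∧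
      (∀ (ℓ : ℕ) (hℓ : ℓ.Prime), ¬ ℓ ∣ N * p →
        ∀ A : ValuationSubring Qb, A.LiesOverPrime ℓ → ∀ σ : GQ, A.IsFrobeniusAt σ ℓ →
          ρ σ * ρ σ - a ⟨ℓ, hℓ⟩ • ρ σ + (ℓ : O) • (1 : Module.End O V) = 0) ∧
      (∀ q : ℕ, q.Prime → q ≠ p → q ∣ N → ¬ q ^ 2 ∣ N →
        ∀ A : ValuationSubring Qb, A.LiesOverPrime q → ∀ σ ∈ A.inertiaSubgroupIn ℚ,
          (ρ σ - 1) * (ρ σ - 1) = 0) := by
  obtain ⟨V, ρ, hfree, hfinite, hrank, hcont, hfix, hfrob, hunip⟩ :=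
    exists_adic_lattice_unip (torsionSystemOf C) O hpO a emb hemb hfin
  refine ⟨V, ρ, hfree, hfinite, hrank, ?_, ?_, ?_, ?_⟩
  · intro n
    obtain ⟨L', hL', hLfix⟩ := LD.finiteLevel n
    exact ⟨L', hL', fun σ hσ v => hcont n σ
      (fun (x : Tors N (p ^ n)) => Subtype.ext (hLfix σ hσ (x : JZero N) x.2)) v⟩
  · intro ℓ hℓ hℓNp A hA σ hσ
    exact hfix σ (fun k (x : Tors N (p ^ k)) =>
      Subtype.ext (LD.unram ℓ hℓ hℓNp A hA σ hσ k (x : JZero N) x.2))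
  · intro ℓ hℓ hℓNp A hA σ hσ
    refine hfrob σ ⟨ℓ, hℓ⟩ ℓ (fun k (x : Tors N (p ^ k)) => ?_)
    apply frob_tors C k σ ⟨ℓ, hℓ⟩ x
    have h1 := LD.frob ℓ hℓ hℓNp A hA σ hσ k (x : JZero N) x.2
    have hN : ¬ ℓ ∣ N := fun h => hℓNp (dvd_mul_of_dvd_left h p)
    rw [C.TJ_good ⟨ℓ, hℓ⟩ hN, ← natCast_zsmul]
    exact h1
  · intro q hq hqp hqN hq2 A hA σ hσ
    refine hunip σ (fun k (x : Tors N (p ^ k)) => ?_)
    apply unip_tors k σ x
    exact hU q hq hqp hqN hq2 A hA σ hσ k (x : JZero N) x.2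

/-- **S30 brick (C), matrix form, with the unipotent clause.** -/
theorem exists_adic_matrix_unip (C : ComparisonData N p) (LD : LocalData N p)
    (hU : UnipTors N p)
    (O : Type) [CommRing O] [IsDomain O] [IsDiscreteValuationRing O]
    [IsAdicComplete (IsLocalRing.maximalIdeal O) O] (hpO : (p : O) ∈ IsLocalRing.maximalIdeal O)
    (a : Nat.Primes → O) {L : Type} [Field L] (emb : O →+* L) (hemb : Function.Injective emb)
    (hfin : Module.finrank L ↥(⨅ ℓ : Nat.Primes, LinearMap.ker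
      (Matrix.toLin' ((C.t ℓ).map (Int.cast : ℤ → L)) - emb (a ℓ) • 1)) = 2) :
    ∃ M : GQ →* Matrix (Fin 2) (Fin 2) O,
      (∀ n : ℕ, ∃ L' : IntermediateField ℚ Qb, FiniteDimensional ℚ L' ∧
        ∀ σ : GQ, (∀ x ∈ L', σ x = x) →
          ∀ i j, (M σ - 1) i j ∈ IsLocalRing.maximalIdeal O ^ n) ∧
      (∀ ℓ : ℕ, ℓ.Prime → ¬ ℓ ∣ N * p →
        ∀ A : ValuationSubring Qb, A.LiesOverPrime ℓ → ∀ σ ∈ A.inertiaSubgroupIn ℚ, M σ = 1) ∧
      (∀ (ℓ : ℕ) (hℓ : ℓ.Prime), ¬ ℓ ∣ N * p →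
        ∀ A : ValuationSubring Qb, A.LiesOverPrime ℓ → ∀ σ : GQ, A.IsFrobeniusAt σ ℓ →
          M σ * M σ - a ⟨ℓ, hℓ⟩ • M σ + (ℓ : O) • (1 : Matrix (Fin 2) (Fin 2) O) = 0) ∧
      (∀ q : ℕ, q.Prime → q ≠ p → q ∣ N → ¬ q ^ 2 ∣ N →
        ∀ A : ValuationSubring Qb, A.LiesOverPrime q → ∀ σ ∈ A.inertiaSubgroupIn ℚ,
          (M σ - 1) * (M σ - 1) = 0) := by
  obtain ⟨V, ρ, hfree, hfinite, hrank, hcont, hunram, hfrob, hunip⟩ :=
    exists_adic_galois_unip C LD hU O hpO a emb hemb hfin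
  let b : Module.Basis (Fin 2) O V := Module.finBasisOfFinrankEq O V hrank
  let Φ : Module.End O V ≃ₐ[O] Matrix (Fin 2) (Fin 2) O := LinearMap.toMatrixAlgEquiv b
  let M : GQ →* Matrix (Fin 2) (Fin 2) O := (Φ : Module.End O V →* Matrix (Fin 2) (Fin 2) O).comp ρ
  have hM : ∀ σ, M σ = Φ (ρ σ) := fun σ => rfl
  refine ⟨M, ?_, ?_, ?_, ?_⟩
  · intro n
    obtain ⟨L', hL', hL'fix⟩ := hcont n
    refine ⟨L', hL', fun σ hσ i j => ?_⟩
    have h1 : (M σ - 1) i j = b.repr (ρ σ (b j) - b j) i := by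
      rw [hM, ← map_one Φ, ← map_sub]
      show LinearMap.toMatrixAlgEquiv b (ρ σ - 1) i j = _
      rw [LinearMap.toMatrixAlgEquiv_apply, LinearMap.sub_apply, Module.End.one_apply]
    rw [h1]
    exact repr_mem_of_mem_smul_top b _ (hL'fix σ hσ (b j)) i
  · intro ℓ hℓ hℓNp A hA σ hσ
    rw [hM, hunram ℓ hℓ hℓNp A hA σ hσ, map_one]
  · intro ℓ hℓ hℓNp A hA σ hσ
    have h0 := hfrob ℓ hℓ hℓNp A hA σ hσ
    rw [hM]
    generalize a ⟨ℓ, hℓ⟩ = c at h0 ⊢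
    have h1 : Φ (ρ σ * ρ σ - c • ρ σ + (ℓ : O) • 1) = 0 := by rw [h0, map_zero]
    have e1 := map_add Φ (ρ σ * ρ σ - c • ρ σ) ((ℓ : O) • 1)
    have e2 := map_sub Φ (ρ σ * ρ σ) (c • ρ σ)
    have e3 := map_mul Φ (ρ σ) (ρ σ)
    have e4 := map_smul Φ c (ρ σ)
    have e5 := map_smul Φ (ℓ : O) (1 : Module.End O V)
    have e6 := map_one Φ
    rw [e1, e2, e3, e4, e5, e6] at h1
    exact h1
  · intro q hq hqp hqN hq2 A hA σ hσ
    have h0 := hunip q hq hqp hqN hq2 A hA σ hσ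
    have h1 : Φ ((ρ σ - 1) * (ρ σ - 1)) = 0 := by rw [h0, map_zero]
    have e1 := map_mul Φ (ρ σ - 1) (ρ σ - 1)
    have e2 := map_sub Φ (ρ σ) 1
    have e3 := map_one Φ
    rw [e1, e2, e3] at h1
    rw [hM]
    exact h1

end Fermat.Agent.S34lib
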